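import Mathlib

/-!
# Program V (S27), leaf A2.1 : abstract linear algebra for the adelic dimension count

Owner: helper28.  Prefix `v27r_`.  Mathlib only.

For submodules `A`, `B` of a `K`-vector space `V` the "relative dimension" of `A` in `B` is
measured by the image `B.map A.mkQ` of `B` in `V ⧸ A`.
-/

set_option autoImplicit false

noncomputable section

open Module

variable {K V W : Type*} [Field K] [AddCommGroup V] [Module K V] [AddCommGroup W] [Module K W]

/-- the kernel of a restricted map, as a subspace of the ambient space. -/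
theorem v27r_map_subtype_ker_domRestrict (f : V →ₗ[K] W) (S : Submodule K V) :
    (LinearMap.ker (f.domRestrict S)).map S.subtype = S ⊓ LinearMap.ker f := by
  ext x
  simp only [Submodule.mem_map, LinearMap.mem_ker, LinearMap.domRestrict_apply,
    Submodule.subtype_apply, Subtype.exists, exists_and_right, exists_eq_right,
    Submodule.mem_inf]
  constructor
  · rintro ⟨hx, h⟩
    exact ⟨hx, h⟩
  · rintro ⟨hx, h⟩
    exact ⟨hx, h⟩

/-- the kernel of a restricted map is isomorphic to `S ⊓ ker f`. -/
def v27r_kerDomRestrictEquiv (f : V →ₗ[K] W) (S : Submodule K V) :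
    ↥(LinearMap.ker (f.domRestrict S)) ≃ₗ[K] ↥(S ⊓ LinearMap.ker f) :=
  (Submodule.equivMapOfInjective S.subtype S.injective_subtype _).trans
    (LinearEquiv.ofEq _ _ (v27r_map_subtype_ker_domRestrict f S))

/-- rank--nullity for the restriction of a linear map to a finite dimensional subspace. -/
theorem v27r_finrank_map_add (f : V →ₗ[K] W) (S : Submodule K V) [Module.Finite K ↥S] :
    finrank K ↥(S.map f) + finrank K ↥(S ⊓ LinearMap.ker f) = finrank K ↥S := by
  have h := (f.domRestrict S).finrank_range_add_finrank_ker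
  rw [LinearMap.range_domRestrict] at h
  rw [← h, (v27r_kerDomRestrictEquiv f S).finrank_eq]

/-- a subspace is finite dimensional as soon as its image and its part in the kernel are. -/
theorem v27r_finite_of_map_of_inf_ker (f : V →ₗ[K] W) (S : Submodule K V)
    (h1 : Module.Finite K ↥(S.map f)) (h2 : Module.Finite K ↥(S ⊓ LinearMap.ker f)) :
    Module.Finite K ↥S := by
  have : Module.Finite K ↥(LinearMap.ker (f.domRestrict S)) :=
    Module.Finite.equiv (v27r_kerDomRestrictEquiv f S).symm
  have : Module.Finite K (↥S ⧸ LinearMap.ker (f.domRestrict S)) := by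
    have e := (f.domRestrict S).quotKerEquivRange
    rw [LinearMap.range_domRestrict] at e
    exact Module.Finite.equiv e.symm
  exact Module.Finite.of_submodule_quotient (LinearMap.ker (f.domRestrict S))

/-! ### relative finiteness and relative dimension -/

/-- `A` has finite codimension in `A ⊔ B`. -/
def v27r_RelFin (A B : Submodule K V) : Prop := Module.Finite K ↥(B.map A.mkQ)

/-- the dimension of `(A ⊔ B) / A`. -/
def v27r_relDim (A B : Submodule K V) : ℕ := finrank K ↥(B.map A.mkQ)

theorem v27r_relFin_self (A : Submodule K V) : v27r_RelFin A A := by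
  unfold v27r_RelFin
  rw [Submodule.mkQ_map_self]
  infer_instance

theorem v27r_relDim_self (A : Submodule K V) : v27r_relDim A A = 0 := by
  unfold v27r_relDim
  rw [Submodule.mkQ_map_self]
  exact finrank_bot K _

/-- the factor map `V ⧸ A → V ⧸ B` for `A ≤ B`. -/
def v27r_factor {A B : Submodule K V} (h : A ≤ B) : (V ⧸ A) →ₗ[K] (V ⧸ B) :=
  Submodule.mapQ A B LinearMap.id (by rwa [Submodule.comap_id])

theorem v27r_factor_comp_mkQ {A B : Submodule K V} (h : A ≤ B) :
    (v27r_factor h).comp A.mkQ = B.mkQ := by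
  ext x
  rfl

theorem v27r_factor_surjective {A B : Submodule K V} (h : A ≤ B) :
    Function.Surjective (v27r_factor h) := by
  intro y
  obtain ⟨x, rfl⟩ := B.mkQ_surjective y
  exact ⟨A.mkQ x, rfl⟩

theorem v27r_map_factor {A B : Submodule K V} (h : A ≤ B) (C : Submodule K V) :
    (C.map A.mkQ).map (v27r_factor h) = C.map B.mkQ := by
  rw [← Submodule.map_comp, v27r_factor_comp_mkQ]

theorem v27r_ker_factor {A B : Submodule K V} (h : A ≤ B) :
    LinearMap.ker (v27r_factor h) = B.map A.mkQ := by
  ext y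
  obtain ⟨x, rfl⟩ := A.mkQ_surjective y
  rw [LinearMap.mem_ker]
  have h1 : v27r_factor h (A.mkQ x) = B.mkQ x := rfl
  rw [h1, Submodule.mkQ_apply, Submodule.Quotient.mk_eq_zero]
  constructor
  · intro hx
    exact ⟨x, hx, rfl⟩
  · rintro ⟨z, hz, hzx⟩
    have h2 : z - x ∈ A := by
      rw [← Submodule.Quotient.eq]
      exact hzx
    have h3 : x = z - (z - x) := by abel
    rw [h3]
    exact B.sub_mem hz (h h2)

/-- membership in the image of a subspace containing `A`. -/
theorem v27r_mkQ_mem_map_iff {A C : Submodule K V} (h : A ≤ C) (x : V) :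
    A.mkQ x ∈ C.map A.mkQ ↔ x ∈ C := by
  constructor
  · rintro ⟨z, hz, hzx⟩
    have h2 : z - x ∈ A := by
      rw [← Submodule.Quotient.eq]
      exact hzx
    have h3 : x = z - (z - x) := by abel
    rw [h3]
    exact C.sub_mem hz (h h2)
  · intro hx
    exact ⟨x, hx, rfl⟩

/-- tower law for relative dimensions. -/
theorem v27r_relFin_trans {A B C : Submodule K V} (hAB : A ≤ B) (hBC : B ≤ C)
    (h1 : v27r_RelFin A B) (h2 : v27r_RelFin B C) :
    v27r_RelFin A C ∧ v27r_relDim A C = v27r_relDim A B + v27r_relDim B C := by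
  unfold v27r_RelFin v27r_relDim at *
  have hker : (C.map A.mkQ) ⊓ LinearMap.ker (v27r_factor hAB) = B.map A.mkQ := by
    rw [v27r_ker_factor]
    exact inf_eq_right.mpr (Submodule.map_mono hBC)
  have hfin : Module.Finite K ↥(C.map A.mkQ) := by
    apply v27r_finite_of_map_of_inf_ker (v27r_factor hAB)
    · rw [v27r_map_factor]
      exact h2
    · rw [hker]
      exact h1
  refine ⟨hfin, ?_⟩
  have := hfin
  have h := v27r_finrank_map_add (v27r_factor hAB) (C.map A.mkQ)
  rw [v27r_map_factor] at h
  rw [← h, add_comm]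
  congr 1
  exact (LinearEquiv.ofEq _ _ hker).finrank_eq

/-- one step: a surjection `ψ : B → W` whose kernel consists of the elements of `A`. -/
theorem v27r_relFin_of_surjective {A B : Submodule K V} (ψ : ↥B →ₗ[K] W)
    (hψ : Function.Surjective ψ) (hker : ∀ b : ↥B, ψ b = 0 ↔ (b : V) ∈ A)
    [Module.Finite K W] :
    v27r_RelFin A B ∧ v27r_relDim A B = finrank K W := by
  unfold v27r_RelFin v27r_relDim
  have hk : LinearMap.ker (A.mkQ.domRestrict B) = LinearMap.ker ψ := by
    ext b
    rw [LinearMap.mem_ker, LinearMap.mem_ker, hker, LinearMap.domRestrict_apply,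
      Submodule.mkQ_apply, Submodule.Quotient.mk_eq_zero]
  have e1 := (A.mkQ.domRestrict B).quotKerEquivRange
  rw [LinearMap.range_domRestrict] at e1
  have e2 := ψ.quotKerEquivOfSurjective hψ
  have e : ↥(B.map A.mkQ) ≃ₗ[K] W :=
    e1.symm.trans ((Submodule.quotEquivOfEq _ _ hk).trans e2)
  exact ⟨Module.Finite.equiv e.symm, e.finrank_eq⟩

/-! ### the exact sequence count -/

/-- the kernel of `V ⧸ (A ⊔ P) → V ⧸ (A' ⊔ P)` is the image of `A'`. -/
theorem v27r_ker_factor_sup {A A' P : Submodule K V} (h : A ≤ A') :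
    LinearMap.ker (v27r_factor (sup_le_sup_right h P)) = A'.map (A ⊔ P).mkQ := by
  rw [v27r_ker_factor, Submodule.map_sup]
  have : P.map (A ⊔ P).mkQ = ⊥ := by
    rw [← LinearMap.le_ker_iff_map, Submodule.ker_mkQ]
    exact le_sup_right
  rw [this, sup_bot_eq]

/-- the exact sequence count. -/
theorem v27r_exact_count {A A' P : Submodule K V} (h : A ≤ A')
    (hfin : v27r_RelFin A A') (hL : Module.Finite K ↥(A' ⊓ P)) :
    Module.Finite K ↥(LinearMap.ker (v27r_factor (sup_le_sup_right h P))) ∧
      finrank K ↥(LinearMap.ker (v27r_factor (sup_le_sup_right h P))) + finrank K ↥(A' ⊓ P)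
        = finrank K ↥(A ⊓ P) + v27r_relDim A A' := by
  unfold v27r_RelFin v27r_relDim at *
  have := hfin
  have := hL
  rw [v27r_ker_factor_sup h]
  have hA : A ≤ A ⊔ P := le_sup_left
  -- the image of `A'` in `V ⧸ (A ⊔ P)` is the image of `S = A'.map A.mkQ`
  have himg : (A'.map A.mkQ).map (v27r_factor hA) = A'.map (A ⊔ P).mkQ := v27r_map_factor hA A'
  -- the kernel part
  have hker : (A'.map A.mkQ) ⊓ LinearMap.ker (v27r_factor hA) = (A' ⊓ P).map A.mkQ := by
    rw [v27r_ker_factor]
    apply le_antisymm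
    · rintro y ⟨hy1, hy2⟩
      obtain ⟨x, rfl⟩ := A.mkQ_surjective y
      have hx1 : x ∈ A' := (v27r_mkQ_mem_map_iff h x).mp hy1
      have hx2 : x ∈ A ⊔ P := (v27r_mkQ_mem_map_iff hA x).mp hy2
      obtain ⟨a, ha, p, hp, rfl⟩ := Submodule.mem_sup.mp hx2
      have hp' : p ∈ A' := by
        have : p = (a + p) - a := by abel
        rw [this]
        exact A'.sub_mem hx1 (h ha)
      refine ⟨p, ⟨hp', hp⟩, ?_⟩
      rw [map_add]
      have : A.mkQ a = 0 := by
        rw [Submodule.mkQ_apply, Submodule.Quotient.mk_eq_zero]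
        exact ha
      rw [this, zero_add]
    · apply le_inf
      · exact Submodule.map_mono inf_le_left
      · exact Submodule.map_mono (inf_le_right.trans le_sup_right)
  have hker2 : (A' ⊓ P) ⊓ LinearMap.ker A.mkQ = A ⊓ P := by
    rw [Submodule.ker_mkQ]
    apply le_antisymm
    · rintro x ⟨⟨_, hx2⟩, hx3⟩
      exact ⟨hx3, hx2⟩
    · rintro x ⟨hx1, hx2⟩
      exact ⟨⟨h hx1, hx2⟩, hx1⟩
  have c1 := v27r_finrank_map_add (v27r_factor hA) (A'.map A.mkQ)
  have c2 := v27r_finrank_map_add A.mkQ (A' ⊓ P)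
  rw [himg, (LinearEquiv.ofEq _ _ hker).finrank_eq] at c1
  rw [(LinearEquiv.ofEq _ _ hker2).finrank_eq] at c2
  constructor
  · rw [← himg]
    infer_instance
  · omega

/-- monotonicity of the "global sections" `A ⊓ P`. -/
theorem v27r_inf_finite_of_relFin {A A' : Submodule K V} (P : Submodule K V) (h : A ≤ A')
    (hfin : v27r_RelFin A A') (hL : Module.Finite K ↥(A ⊓ P)) :
    Module.Finite K ↥(A' ⊓ P) ∧
      finrank K ↥(A' ⊓ P) ≤ finrank K ↥(A ⊓ P) + v27r_relDim A A' := by
  unfold v27r_RelFin v27r_relDim at *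
  have := hfin
  have := hL
  have hker2 : (A' ⊓ P) ⊓ LinearMap.ker A.mkQ = A ⊓ P := by
    rw [Submodule.ker_mkQ]
    apply le_antisymm
    · rintro x ⟨⟨_, hx2⟩, hx3⟩
      exact ⟨hx3, hx2⟩
    · rintro x ⟨hx1, hx2⟩
      exact ⟨⟨h hx1, hx2⟩, hx1⟩
  have hle : (A' ⊓ P).map A.mkQ ≤ A'.map A.mkQ := Submodule.map_mono inf_le_left
  have hfin1 : Module.Finite K ↥((A' ⊓ P).map A.mkQ) :=
    Submodule.finiteDimensional_of_le hle
  have hfin2 : Module.Finite K ↥(A' ⊓ P) := by
    apply v27r_finite_of_map_of_inf_ker A.mkQ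
    · exact hfin1
    · rw [hker2]
      exact hL
  refine ⟨hfin2, ?_⟩
  have c2 := v27r_finrank_map_add A.mkQ (A' ⊓ P)
  rw [(LinearEquiv.ofEq _ _ hker2).finrank_eq] at c2
  have c3 : finrank K ↥((A' ⊓ P).map A.mkQ) ≤ finrank K ↥(A'.map A.mkQ) :=
    Submodule.finrank_mono hle
  omega

/-- a surjection with finite dimensional kernel: finiteness transfers and rank--nullity. -/
theorem v27r_finite_iff_of_surjective (q : V →ₗ[K] W) (hq : Function.Surjective q)
    (hk : Module.Finite K ↥(LinearMap.ker q)) :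
    (Module.Finite K V ↔ Module.Finite K W) ∧
      (Module.Finite K W → finrank K V = finrank K W + finrank K ↥(LinearMap.ker q)) := by
  have hiff : Module.Finite K V ↔ Module.Finite K W := by
    constructor
    · intro h
      exact Module.Finite.of_surjective q hq
    · intro h
      have : Module.Finite K (V ⧸ LinearMap.ker q) :=
        Module.Finite.equiv (q.quotKerEquivOfSurjective hq).symm
      exact Module.Finite.of_submodule_quotient (LinearMap.ker q)
  refine ⟨hiff, ?_⟩
  intro h
  have := hiff.mpr h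
  have h1 := q.finrank_range_add_finrank_ker
  rw [LinearMap.range_eq_top.mpr hq, finrank_top] at h1
  exact h1.symm

end
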