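import Mathlib
import Fermat.Prelude.Def_AlgebraicCurve_Repartitions
import Fermat.Agent.V.Rep.Lin

/-!
# Program V (S27), leaf A2.1 : the one-step local computation

Owner: helper28.  Prefix `v27r_`.

`A(D + v) / A(D)` is isomorphic to the residue field of `v`.
-/

set_option autoImplicit false

noncomputable section

open WithZero

namespace AlgebraicCurve

variable {K F : Type*} [Field K] [Field F] [Algebra K F]

/-! ### order facts in `ℤᵐ⁰` -/

theorem v27r_lt_exp_succ_iff (x : ℤᵐ⁰) (n : ℤ) : x < exp (n + 1) ↔ x ≤ exp n := by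
  rcases eq_or_ne x 0 with rfl | hx
  · simp [zero_lt_iff]
  · rw [← exp_log hx, exp_lt_exp, exp_le_exp, Int.lt_add_one_iff]

theorem v27r_exp_mul_lt_one_iff (k : ℤ) (y : ℤᵐ⁰) : exp k * y < 1 ↔ y < exp (-k) := by
  rcases eq_or_ne y 0 with rfl | hy
  · simp [zero_lt_iff]
  · rw [← exp_log hy, ← exp_add, ← exp_zero, exp_lt_exp, exp_lt_exp]
    constructor <;> intro h <;> linarith

theorem v27r_exp_mul_le_one_iff (k : ℤ) (y : ℤᵐ⁰) : exp k * y ≤ 1 ↔ y ≤ exp (-k) := by
  rcases eq_or_ne y 0 with rfl | hy
  · simp
  · rw [← exp_log hy, ← exp_add, ← exp_zero, exp_le_exp, exp_le_exp]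
    constructor <;> intro h <;> linarith

/-! ### the valuation ring of a place -/

namespace Place

variable (v : Place K F)

theorem v27r_mem_of_adicValuation_le_one {x : F} (h : v.adicValuation x ≤ 1) :
    x ∈ v.toValuationSubring := by
  by_contra hx
  have hx0 : x ≠ 0 := fun h0 => hx (h0 ▸ v.toValuationSubring.zero_mem)
  have hxi : x⁻¹ ∈ v.toValuationSubring :=
    (v.toValuationSubring.mem_or_inv_mem x).resolve_left hx
  have hnu : ¬ IsUnit (⟨x⁻¹, hxi⟩ : v.toValuationSubring) := by
    intro hu
    obtain ⟨b, hb⟩ := hu.exists_right_inv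
    have hb' : x⁻¹ * (b : F) = 1 := by
      have := congrArg Subtype.val hb
      simpa using this
    have hbx : (b : F) = x := by
      field_simp at hb'
      exact hb'
    exact hx (hbx ▸ b.2)
  have h1 : v.adicValuation x⁻¹ ≤ 1 := v.adicValuation_le_one_of_mem hxi
  have h2 : v.adicValuation x⁻¹ ≠ 1 := fun h => hnu ((v.adicValuation_coe_eq_one_iff ⟨x⁻¹, hxi⟩).mp h)
  have h3 : v.adicValuation x⁻¹ < 1 := lt_of_le_of_ne h1 h2
  rw [map_inv₀] at h3
  have h4 : v.adicValuation x ≠ 0 := v.adicValuation_ne_zero hx0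
  have h5 : 1 < v.adicValuation x := by
    by_contra h6
    rw [not_lt] at h6
    have : 1 ≤ (v.adicValuation x)⁻¹ := by
      rw [one_le_inv₀ (zero_lt_iff.mpr h4)]
      exact h6
    exact absurd h3 (not_lt.mpr this)
  exact absurd h (not_le.mpr h5)

theorem v27r_mem_iff_adicValuation_le_one {x : F} :
    x ∈ v.toValuationSubring ↔ v.adicValuation x ≤ 1 :=
  ⟨v.adicValuation_le_one_of_mem, v.v27r_mem_of_adicValuation_le_one⟩

theorem v27r_mem_maximalIdeal_iff (a : v.toValuationSubring) :
    a ∈ IsLocalRing.maximalIdeal v.toValuationSubring ↔ v.adicValuation (a : F) < 1 := by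
  rw [IsLocalRing.mem_maximalIdeal, mem_nonunits_iff, ← v.adicValuation_coe_eq_one_iff]
  have h1 : v.adicValuation (a : F) ≤ 1 := v.adicValuation_le_one_of_mem a.2
  constructor
  · intro h
    exact lt_of_le_of_ne h1 h
  · intro h
    exact ne_of_lt h

theorem v27r_exists_uniformizer : ∃ π : F, v.adicValuation π = exp (-1 : ℤ) := by
  obtain ⟨π, hπ⟩ := IsDiscreteValuationRing.exists_irreducible v.toValuationSubring
  exact ⟨(π : F), v.adicValuation_coe_irreducible hπ⟩

theorem v27r_adicValuation_zpow {π : F} (hπ : v.adicValuation π = exp (-1 : ℤ)) (m : ℤ) :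
    v.adicValuation (π ^ m) = exp (-m) := by
  rw [map_zpow₀, hπ, ← exp_zsmul]
  simp

theorem v27r_uniformizer_ne_zero {π : F} (hπ : v.adicValuation π = exp (-1 : ℤ)) : π ≠ 0 := by
  intro h
  rw [h, map_zero] at hπ
  exact exp_ne_zero hπ.symm

end Place

/-! ### evaluation at a place -/

/-- evaluation of a repartition at a place, as a `K`-linear map. -/
def v27r_ev (v : Place K F) : ↥(repartitions K F) →ₗ[K] F where
  toFun α := (α : Place K F → F) v
  map_add' _ _ := rfl
  map_smul' _ _ := rfl

theorem v27r_ev_apply (v : Place K F) (α : ↥(repartitions K F)) :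
    v27r_ev v α = (α : Place K F → F) v := rfl

theorem v27r_mem_repartitionsOf {D : Divisor K F} {α : ↥(repartitions K F)} :
    α ∈ repartitionsOf D ↔ ∀ w : Place K F, w.adicValuation (v27r_ev w α) ≤ exp (D w) :=
  Iff.rfl

/-- a repartition supported at one place. -/
def v27r_single (v : Place K F) (y : F) : ↥(repartitions K F) := by
  classical
  exact ⟨Pi.single v y, mem_repartitions_of_finite <| (Set.finite_singleton v).subset (by
    intro w hw
    rw [Set.mem_singleton_iff]
    by_contra hne
    apply hw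
    rw [Pi.single_eq_of_ne hne, map_zero]
    exact zero_le)⟩

theorem v27r_ev_single_same (v : Place K F) (y : F) : v27r_ev v (v27r_single v y) = y := by
  classical
  show (Pi.single v y : Place K F → F) v = y
  simp

theorem v27r_ev_single_of_ne {v w : Place K F} (h : w ≠ v) (y : F) :
    v27r_ev w (v27r_single v y) = 0 := by
  classical
  show (Pi.single v y : Place K F → F) w = 0
  simp [h]

/-! ### the one-step map -/

theorem v27r_step_mem (D : Divisor K F) (v : Place K F) {π : F}
    (hπ : v.adicValuation π = exp (-1 : ℤ))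
    (α : ↥(repartitionsOf (D + Finsupp.single v 1))) :
    π ^ (D v + 1) * v27r_ev v (α : ↥(repartitions K F)) ∈ v.toValuationSubring := by
  apply v.v27r_mem_of_adicValuation_le_one
  rw [map_mul, v.v27r_adicValuation_zpow hπ, v27r_exp_mul_le_one_iff, neg_neg]
  have h := α.2 v
  have h2 : (D + Finsupp.single v 1 : Divisor K F) v = D v + 1 := by
    rw [Finsupp.add_apply, Finsupp.single_eq_same]
  rw [h2] at h
  exact h

/-- the one-step map `A(D + v) → κ(v)`. -/
def v27r_step (D : Divisor K F) (v : Place K F) {π : F}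
    (hπ : v.adicValuation π = exp (-1 : ℤ)) :
    ↥(repartitionsOf (D + Finsupp.single v 1)) →ₗ[K] v.ResidueField where
  toFun α := IsLocalRing.residue v.toValuationSubring
    ⟨π ^ (D v + 1) * v27r_ev v (α : ↥(repartitions K F)), v27r_step_mem D v hπ α⟩
  map_add' α β := by
    rw [← map_add]
    congr 1
    apply Subtype.ext
    show π ^ (D v + 1) * v27r_ev v ((α + β : ↥(repartitionsOf (D + Finsupp.single v 1))) :
        ↥(repartitions K F)) = π ^ (D v + 1) * v27r_ev v (α : ↥(repartitions K F))
          + π ^ (D v + 1) * v27r_ev v (β : ↥(repartitions K F))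
    rw [Submodule.coe_add, map_add, mul_add]
  map_smul' c α := by
    rw [RingHom.id_apply, Algebra.smul_def]
    have h1 : algebraMap K v.ResidueField c
        = IsLocalRing.residue v.toValuationSubring (algebraMap K v.toValuationSubring c) := rfl
    rw [h1, ← map_mul]
    congr 1
    apply Subtype.ext
    show π ^ (D v + 1) * v27r_ev v ((c • α : ↥(repartitionsOf (D + Finsupp.single v 1))) :
        ↥(repartitions K F)) = algebraMap K F c * (π ^ (D v + 1) * v27r_ev v (α : ↥(repartitions K F)))
    rw [Submodule.coe_smul, map_smul, Algebra.smul_def]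
    ring

theorem v27r_step_apply (D : Divisor K F) (v : Place K F) {π : F}
    (hπ : v.adicValuation π = exp (-1 : ℤ))
    (α : ↥(repartitionsOf (D + Finsupp.single v 1))) :
    v27r_step D v hπ α = IsLocalRing.residue v.toValuationSubring
      ⟨π ^ (D v + 1) * v27r_ev v (α : ↥(repartitions K F)), v27r_step_mem D v hπ α⟩ := rfl

theorem v27r_step_eq_zero_iff (D : Divisor K F) (v : Place K F) {π : F}
    (hπ : v.adicValuation π = exp (-1 : ℤ))
    (α : ↥(repartitionsOf (D + Finsupp.single v 1))) :
    v27r_step D v hπ α = 0 ↔ (α : ↥(repartitions K F)) ∈ repartitionsOf D := by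
  rw [v27r_step_apply, IsLocalRing.residue_eq_zero_iff, v.v27r_mem_maximalIdeal_iff]
  show v.adicValuation (π ^ (D v + 1) * v27r_ev v (α : ↥(repartitions K F))) < 1 ↔ _
  rw [map_mul, v.v27r_adicValuation_zpow hπ, v27r_exp_mul_lt_one_iff, neg_neg,
    v27r_lt_exp_succ_iff, v27r_mem_repartitionsOf]
  constructor
  · intro h w
    by_cases hw : w = v
    · subst hw
      exact h
    · have h1 := α.2 w
      have h2 : (D + Finsupp.single v 1 : Divisor K F) w = D w := by
        rw [Finsupp.add_apply, Finsupp.single_eq_of_ne hw, add_zero]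
      rw [h2] at h1
      exact h1
  · intro h
    exact h v

theorem v27r_step_surjective (D : Divisor K F) (v : Place K F) {π : F}
    (hπ : v.adicValuation π = exp (-1 : ℤ)) :
    Function.Surjective (v27r_step D v hπ) := by
  intro r
  obtain ⟨x, rfl⟩ := IsLocalRing.residue_surjective r
  have hπ0 : π ≠ 0 := v.v27r_uniformizer_ne_zero hπ
  have hmem : v27r_single v (π ^ (-(D v + 1)) * (x : F)) ∈
      repartitionsOf (D + Finsupp.single v 1) := by
    rw [v27r_mem_repartitionsOf]
    intro w
    by_cases hw : w = v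
    · subst hw
      rw [v27r_ev_single_same, map_mul, w.v27r_adicValuation_zpow hπ, neg_neg]
      have h2 : (D + Finsupp.single w 1 : Divisor K F) w = D w + 1 := by
        rw [Finsupp.add_apply, Finsupp.single_eq_same]
      rw [h2]
      exact mul_le_of_le_one_right' (w.adicValuation_le_one_of_mem x.2)
    · rw [v27r_ev_single_of_ne hw, map_zero]
      exact zero_le
  refine ⟨⟨_, hmem⟩, ?_⟩
  rw [v27r_step_apply]
  congr 1
  apply Subtype.ext
  show π ^ (D v + 1) * v27r_ev v (v27r_single v (π ^ (-(D v + 1)) * (x : F))) = (x : F)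
  rw [v27r_ev_single_same, ← mul_assoc, ← zpow_add₀ hπ0, add_neg_cancel, zpow_zero, one_mul]

/-- the one-step dimension count. -/
theorem v27r_relFin_step (D : Divisor K F) (v : Place K F) [Module.Finite K v.ResidueField] :
    v27r_RelFin (repartitionsOf D) (repartitionsOf (D + Finsupp.single v 1)) ∧
    v27r_relDim (repartitionsOf D) (repartitionsOf (D + Finsupp.single v 1)) = v.deg := by
  obtain ⟨π, hπ⟩ := v.v27r_exists_uniformizer
  exact v27r_relFin_of_surjective (v27r_step D v hπ) (v27r_step_surjective D v hπ)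
    (v27r_step_eq_zero_iff D v hπ)

end AlgebraicCurve

end
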