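import Mathlib
import Fermat.Prelude.Def_AlgebraicCurve_Repartitions
import Fermat.Agent.V.Rep.Lin
import Fermat.Agent.V.Rep.Local

/-!
# Program V (S27), leaf A2.1 : `dim A(D') / A(D) = deg D' - deg D`

Owner: helper28.  Prefix `v27r_`.
-/

set_option autoImplicit false

noncomputable section

open WithZero

namespace AlgebraicCurve

variable {K F : Type*} [Field K] [Field F] [Algebra K F]

/-- the inclusion of `ℕ`-valued divisors. -/
def v27r_cast : (Place K F →₀ ℕ) →+ Divisor K F :=
  Finsupp.mapRange.addMonoidHom (Nat.castAddMonoidHom ℤ)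

theorem v27r_cast_apply (f : Place K F →₀ ℕ) (v : Place K F) :
    v27r_cast f v = (f v : ℤ) := rfl

theorem v27r_cast_nonneg (f : Place K F →₀ ℕ) : (0 : Divisor K F) ≤ v27r_cast f := by
  rw [Finsupp.le_def]
  intro v
  rw [v27r_cast_apply]
  exact Int.natCast_nonneg _

theorem v27r_cast_single (v : Place K F) (n : ℕ) :
    v27r_cast (Finsupp.single v n) = Finsupp.single v (n : ℤ) := by
  ext w
  rw [v27r_cast_apply]
  by_cases h : w = v
  · subst h
    simp
  · rw [Finsupp.single_eq_of_ne h, Finsupp.single_eq_of_ne h]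
    rfl

theorem v27r_exists_cast {E : Divisor K F} (hE : 0 ≤ E) : ∃ f : Place K F →₀ ℕ, v27r_cast f = E := by
  refine ⟨E.mapRange Int.toNat rfl, ?_⟩
  ext v
  rw [v27r_cast_apply, Finsupp.mapRange_apply]
  exact Int.toNat_of_nonneg (Finsupp.le_def.mp hE v)

theorem v27r_le_add_cast (D : Divisor K F) (f : Place K F →₀ ℕ) : D ≤ D + v27r_cast f :=
  le_add_of_nonneg_right (v27r_cast_nonneg f)

/-- the statement proved by induction. -/
def v27r_QuotP (f : Place K F →₀ ℕ) : Prop :=
  ∀ D : Divisor K F,
    v27r_RelFin (repartitionsOf D) (repartitionsOf (D + v27r_cast f)) ∧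
    (v27r_relDim (repartitionsOf D) (repartitionsOf (D + v27r_cast f)) : ℤ)
      = Divisor.degree (v27r_cast f)

theorem v27r_quotP_zero : v27r_QuotP (0 : Place K F →₀ ℕ) := by
  intro D
  rw [map_zero, add_zero, map_zero]
  exact ⟨v27r_relFin_self _, by rw [v27r_relDim_self]; rfl⟩

theorem v27r_quotP_add {f g : Place K F →₀ ℕ} (hf : v27r_QuotP f) (hg : v27r_QuotP g) :
    v27r_QuotP (f + g) := by
  intro D
  obtain ⟨h1, h2⟩ := hf D
  obtain ⟨h3, h4⟩ := hg (D + v27r_cast f)
  have hle1 : repartitionsOf D ≤ repartitionsOf (D + v27r_cast f) :=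
    repartitionsOf_mono (v27r_le_add_cast D f)
  have hle2 : repartitionsOf (D + v27r_cast f) ≤ repartitionsOf (D + v27r_cast f + v27r_cast g) :=
    repartitionsOf_mono (v27r_le_add_cast _ g)
  obtain ⟨h5, h6⟩ := v27r_relFin_trans hle1 hle2 h1 h3
  rw [map_add, ← add_assoc, map_add]
  refine ⟨h5, ?_⟩
  rw [h6, Nat.cast_add, h2, h4]

theorem v27r_quotP_single_one (hfin : ∀ v : Place K F, Module.Finite K v.ResidueField)
    (v : Place K F) : v27r_QuotP (Finsupp.single v 1) := by
  intro D
  haveI := hfin v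
  rw [v27r_cast_single, Nat.cast_one]
  obtain ⟨h1, h2⟩ := v27r_relFin_step D v
  refine ⟨h1, ?_⟩
  rw [h2, Divisor.degree_single, one_mul]

theorem v27r_quotP_single (hfin : ∀ v : Place K F, Module.Finite K v.ResidueField)
    (v : Place K F) (n : ℕ) : v27r_QuotP (Finsupp.single v n) := by
  induction n with
  | zero =>
    rw [Finsupp.single_zero]
    exact v27r_quotP_zero
  | succ n ih =>
    rw [Finsupp.single_add]
    exact v27r_quotP_add ih (v27r_quotP_single_one hfin v)

theorem v27r_quotP (hfin : ∀ v : Place K F, Module.Finite K v.ResidueField)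
    (f : Place K F →₀ ℕ) : v27r_QuotP f := by
  induction f using Finsupp.induction_linear with
  | zero => exact v27r_quotP_zero
  | add f g hf hg => exact v27r_quotP_add hf hg
  | single v n => exact v27r_quotP_single hfin v n

/-- (R1), relative form. -/
theorem v27r_relFin_of_le (hfin : ∀ v : Place K F, Module.Finite K v.ResidueField)
    {D D' : Divisor K F} (h : D ≤ D') :
    v27r_RelFin (repartitionsOf D) (repartitionsOf D') ∧
    (v27r_relDim (repartitionsOf D) (repartitionsOf D') : ℤ)
      = Divisor.degree D' - Divisor.degree D := by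
  obtain ⟨f, hf⟩ := v27r_exists_cast (sub_nonneg.mpr h)
  have h1 := v27r_quotP hfin f D
  rw [hf, add_sub_cancel, map_sub] at h1
  exact h1

end AlgebraicCurve

end
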