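import Mathlib
import Fermat.Prelude.Def_AlgebraicCurve_Repartitions
import Fermat.Agent.V.Rep.Lin
import Fermat.Agent.V.Rep.Local
import Fermat.Agent.V.Rep.Quot

/-!
# Program V (S27), leaf A2.1 : the spaces `L(D)` inside the repartitions

Owner: helper28.  Prefix `v27r_`.
-/

set_option autoImplicit false

noncomputable section

open WithZero Module

namespace AlgebraicCurve

variable {K F : Type*} [Field K] [Field F] [Algebra K F]

/-! ### degrees of effective divisors -/

theorem v27r_degree_eq_sum (E : Divisor K F) :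
    Divisor.degree E = E.sum fun v n => n * (v.deg : ℤ) := by
  unfold Divisor.degree
  rw [Finsupp.liftAddHom_apply]
  rfl

theorem v27r_degree_nonneg {E : Divisor K F} (hE : 0 ≤ E) : 0 ≤ Divisor.degree E := by
  rw [v27r_degree_eq_sum]
  apply Finsupp.sum_nonneg
  intro v _
  exact mul_nonneg (Finsupp.le_def.mp hE v) (Int.natCast_nonneg _)

theorem v27r_degree_mono {D D' : Divisor K F} (h : D ≤ D') :
    Divisor.degree D ≤ Divisor.degree D' := by
  have := v27r_degree_nonneg (sub_nonneg.mpr h)
  rw [map_sub] at this
  linarith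

/-- (R2a) `L(D) = 0` for `deg D < 0`. -/
theorem v27r_rrSpace_eq_bot [HasPrincipalDivisors K F] {D : Divisor K F}
    (hD : Divisor.degree D < 0) : riemannRochSpace D = ⊥ := by
  rw [eq_bot_iff]
  intro f hf
  rw [Submodule.mem_bot]
  by_contra hf0
  obtain ⟨Df, hDf, hdeg⟩ := HasPrincipalDivisors.exists_divisor (K := K) f hf0
  have hnonneg : (0 : Divisor K F) ≤ D + Df := by
    rw [Finsupp.le_def]
    intro v
    rw [Finsupp.add_apply, hDf v, Finsupp.zero_apply]
    rcases (mem_riemannRochSpace_iff.mp hf) v with h | h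
    · exact absurd h hf0
    · linarith
  have := v27r_degree_nonneg hnonneg
  rw [map_add, hdeg, add_zero] at this
  linarith

/-! ### the constant embedding -/

variable (K F) in
/-- the constant repartitions, as a `K`-linear map. -/
def v27r_const : F →ₗ[K] ↥(repartitions K F) :=
  (Algebra.linearMap F ↥(repartitions K F)).restrictScalars K

theorem v27r_ev_const (v : Place K F) (f : F) : v27r_ev v (v27r_const K F f) = f := rfl

theorem v27r_const_injective [Nonempty (Place K F)] : Function.Injective (v27r_const K F) := by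
  intro f g h
  obtain ⟨v⟩ := ‹Nonempty (Place K F)›
  have := congrArg (v27r_ev v) h
  rwa [v27r_ev_const, v27r_ev_const] at this

theorem v27r_range_const :
    LinearMap.range (v27r_const K F) = principalRepartitions K F := by
  ext α
  simp only [principalRepartitions, Submodule.restrictScalars_mem, LinearMap.mem_range]
  rfl

/-- `L(D)` is the intersection of `A(D)` with the principal repartitions. -/
theorem v27r_map_const_rrSpace (D : Divisor K F) :
    (riemannRochSpace D).map (v27r_const K F) = repartitionsOf D ⊓ principalRepartitions K F := by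
  ext α
  rw [Submodule.mem_inf, ← v27r_range_const]
  constructor
  · rintro ⟨f, hf, rfl⟩
    exact ⟨fun v => hf v, ⟨f, rfl⟩⟩
  · rintro ⟨h1, ⟨f, rfl⟩⟩
    exact ⟨f, fun v => h1 v, rfl⟩

/-- `L(D) ≃ A(D) ⊓ F`. -/
def v27r_rrSpaceEquiv [Nonempty (Place K F)] (D : Divisor K F) :
    ↥(riemannRochSpace D) ≃ₗ[K] ↥(repartitionsOf D ⊓ principalRepartitions K F) :=
  (Submodule.equivMapOfInjective (v27r_const K F) v27r_const_injective _).trans
    (LinearEquiv.ofEq _ _ (v27r_map_const_rrSpace D))

theorem v27r_rrSpace_finite_iff [Nonempty (Place K F)] (D : Divisor K F) :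
    Module.Finite K ↥(riemannRochSpace D) ↔
      Module.Finite K ↥(repartitionsOf D ⊓ principalRepartitions K F) :=
  ⟨fun _ => Module.Finite.equiv (v27r_rrSpaceEquiv D),
    fun _ => Module.Finite.equiv (v27r_rrSpaceEquiv D).symm⟩

theorem v27r_rrSpace_finrank [Nonempty (Place K F)] (D : Divisor K F) :
    finrank K ↥(riemannRochSpace D) =
      finrank K ↥(repartitionsOf D ⊓ principalRepartitions K F) :=
  (v27r_rrSpaceEquiv D).finrank_eq

/-! ### finiteness of `L(D)` -/

theorem v27r_deg_pos (v : Place K F) [Module.Finite K v.ResidueField] : 0 < v.deg :=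
  Module.finrank_pos

/-- a divisor below `D` of negative degree. -/
theorem v27r_exists_le_degree_neg (hfin : ∀ v : Place K F, Module.Finite K v.ResidueField)
    [Nonempty (Place K F)] (D : Divisor K F) :
    ∃ D₀ : Divisor K F, D₀ ≤ D ∧ Divisor.degree D₀ < 0 := by
  obtain ⟨v⟩ := ‹Nonempty (Place K F)›
  have := hfin v
  have hpos : 0 < v.deg := v27r_deg_pos v
  set n : ℤ := (Divisor.degree D).toNat + 1 with hn
  refine ⟨D - Finsupp.single v n, ?_, ?_⟩
  · have h0 : (0 : Divisor K F) ≤ Finsupp.single v n := by
      rw [Finsupp.le_def]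
      intro w
      by_cases hw : w = v
      · subst hw
        rw [Finsupp.single_eq_same, Finsupp.zero_apply]
        positivity
      · rw [Finsupp.single_eq_of_ne hw]
        rfl
    exact sub_le_self D h0
  · rw [map_sub, Divisor.degree_single]
    have h1 : Divisor.degree D ≤ (Divisor.degree D).toNat := Int.self_le_toNat _
    have h2 : (1 : ℤ) ≤ v.deg := by exact_mod_cast hpos
    have h3 : (0 : ℤ) ≤ (Divisor.degree D).toNat := Int.natCast_nonneg _
    nlinarith

/-- (R2b) `L(D)` is finite dimensional. -/
theorem v27r_rrSpace_finite [HasPrincipalDivisors K F]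
    (hfin : ∀ v : Place K F, Module.Finite K v.ResidueField) [Nonempty (Place K F)]
    (D : Divisor K F) : Module.Finite K ↥(riemannRochSpace D) := by
  obtain ⟨D₀, hle, hdeg⟩ := v27r_exists_le_degree_neg hfin D
  rw [v27r_rrSpace_finite_iff]
  have h0 : Module.Finite K ↥(repartitionsOf D₀ ⊓ principalRepartitions K F) := by
    rw [← v27r_rrSpace_finite_iff, v27r_rrSpace_eq_bot hdeg]
    infer_instance
  exact (v27r_inf_finite_of_relFin (principalRepartitions K F) (repartitionsOf_mono hle)
    (v27r_relFin_of_le hfin hle).1 h0).1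

/-- (R2b) `l(D') ≤ l(D) + deg D' - deg D` for `D ≤ D'`. -/
theorem v27r_rrSpace_finrank_le [HasPrincipalDivisors K F]
    (hfin : ∀ v : Place K F, Module.Finite K v.ResidueField) [Nonempty (Place K F)]
    {D D' : Divisor K F} (h : D ≤ D') :
    (finrank K ↥(riemannRochSpace D') : ℤ)
      ≤ finrank K ↥(riemannRochSpace D) + (Divisor.degree D' - Divisor.degree D) := by
  have h0 : Module.Finite K ↥(repartitionsOf D ⊓ principalRepartitions K F) :=
    (v27r_rrSpace_finite_iff D).mp (v27r_rrSpace_finite hfin D)
  have h1 := (v27r_inf_finite_of_relFin (principalRepartitions K F) (repartitionsOf_mono h)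
    (v27r_relFin_of_le hfin h).1 h0).2
  rw [v27r_rrSpace_finrank, v27r_rrSpace_finrank, ← (v27r_relFin_of_le hfin h).2]
  exact_mod_cast h1

end AlgebraicCurve

end
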