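import Mathlib
import Fermat.Prelude.Def_AlgebraicCurve_Repartitions

/-!
# Program V (S27), leaf A2.1 : the adelic dimension count (Spec, statement-only)

Owner: helper28.  Prefix `v27r_`.  Everything is stated on the Prelude definitions
`repartitions`, `repartitionsOf`, `riemannRochSpace`, `principalRepartitions`, `H1`, for an
arbitrary constant field `K`.  The producers are `Fermat/Agent/V/Rep/*.lean`.
-/

set_option autoImplicit false

noncomputable section

namespace AlgebraicCurve

variable {K F : Type*} [Field K] [Field F] [Algebra K F]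

/-- the natural surjection `H1 D → H1 D'` for `D ≤ D'`. -/
def v27r_H1map {D D' : Divisor K F} (h : D ≤ D') : H1 D →ₗ[K] H1 D' :=
  Submodule.mapQ _ _ LinearMap.id
    (by
      rw [Submodule.comap_id]
      exact sup_le_sup_right (repartitionsOf_mono h) _)

variable (K F)

/-- (R1) `A(D') / A(D)` (realised as the image of `A(D')` in `A / A(D)`) is finite dimensional
of dimension `deg D' - deg D`. -/
def V27rQuotSpec : Prop :=
  (∀ v : Place K F, Module.Finite K v.ResidueField) →
  ∀ D D' : Divisor K F, D ≤ D' →
    Module.Finite K ↥((repartitionsOf D').map (repartitionsOf D).mkQ) ∧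
    (Module.finrank K ↥((repartitionsOf D').map (repartitionsOf D).mkQ) : ℤ)
      = Divisor.degree D' - Divisor.degree D

/-- (R2a) `L(D) = 0` for `deg D < 0`. -/
def V27rRRSpaceBotSpec : Prop :=
  HasPrincipalDivisors K F →
  (∀ v : Place K F, Module.Finite K v.ResidueField) →
  ∀ D : Divisor K F, Divisor.degree D < 0 → riemannRochSpace D = ⊥

/-- (R2b) `L(D)` is finite dimensional, and `l(D') ≤ l(D) + deg D' - deg D` for `D ≤ D'`. -/
def V27rRRSpaceFiniteSpec : Prop :=
  HasPrincipalDivisors K F →
  (∀ v : Place K F, Module.Finite K v.ResidueField) →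
  Nonempty (Place K F) →
  (∀ D : Divisor K F, Module.Finite K (riemannRochSpace D)) ∧
  ∀ D D' : Divisor K F, D ≤ D' →
    (Module.finrank K (riemannRochSpace D') : ℤ)
      ≤ Module.finrank K (riemannRochSpace D) + (Divisor.degree D' - Divisor.degree D)

/-- (R3) the exact sequence count: `dim ker (H1 D → H1 D') + l(D') = l(D) + deg D' - deg D`. -/
def V27rKerSpec : Prop :=
  HasPrincipalDivisors K F →
  (∀ v : Place K F, Module.Finite K v.ResidueField) →
  Nonempty (Place K F) →
  ∀ (D D' : Divisor K F) (h : D ≤ D'),
    Function.Surjective (v27r_H1map h) ∧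
    Module.Finite K (LinearMap.ker (v27r_H1map h)) ∧
    (Module.finrank K (LinearMap.ker (v27r_H1map h)) : ℤ)
        + Module.finrank K (riemannRochSpace D')
      = Module.finrank K (riemannRochSpace D) + (Divisor.degree D' - Divisor.degree D)

/-- (R4) the form consumed by Riemann--Roch: finiteness of one `H1` gives finiteness of all,
and `l(D) - i(D) - deg D` does not depend on `D`. -/
def V27rEulerSpec : Prop :=
  HasPrincipalDivisors K F →
  (∀ v : Place K F, Module.Finite K v.ResidueField) →
  Nonempty (Place K F) →
  ∀ D₀ : Divisor K F, Module.Finite K (H1 D₀) →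
    (∀ D : Divisor K F, Module.Finite K (H1 D)) ∧
    ∀ D E : Divisor K F,
      (Module.finrank K (riemannRochSpace D) : ℤ) - Module.finrank K (H1 D) - Divisor.degree D
        = (Module.finrank K (riemannRochSpace E) : ℤ) - Module.finrank K (H1 E)
            - Divisor.degree E

/-- (R4') in terms of `genusFF`. -/
def V27rGenusSpec : Prop :=
  HasPrincipalDivisors K F →
  (∀ v : Place K F, Module.Finite K v.ResidueField) →
  Nonempty (Place K F) →
  Module.Finite K (H1 (0 : Divisor K F)) →
  ∀ D : Divisor K F,
    (Module.finrank K (riemannRochSpace D) : ℤ) - Module.finrank K (H1 D)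
      = Divisor.degree D + Module.finrank K (riemannRochSpace (0 : Divisor K F)) - genusFF K F

end AlgebraicCurve

end
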