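import Mathlib
import Fermat.Prelude.Def_AlgebraicCurve_Repartitions
import Fermat.Agent.V.Rep.Spec
import Fermat.Agent.V.Rep.Lin
import Fermat.Agent.V.Rep.Local
import Fermat.Agent.V.Rep.Quot
import Fermat.Agent.V.Rep.RRSpace

/-!
# Program V (S27), leaf A2.1 : the adelic dimension count (producers of `V/Rep/Spec.lean`)

Owner: helper28.  Prefix `v27r_`.
-/

set_option autoImplicit false

noncomputable section

open WithZero Module

namespace AlgebraicCurve

variable {K F : Type*} [Field K] [Field F] [Algebra K F]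

/-- (R1). -/
theorem v27r_quot : V27rQuotSpec K F := fun hfin _ _ h => v27r_relFin_of_le hfin h

/-- (R2a). -/
theorem v27r_rrSpaceBot : V27rRRSpaceBotSpec K F := fun hP _ _ hD =>
  haveI := hP
  v27r_rrSpace_eq_bot hD

/-- (R2b). -/
theorem v27r_rrSpaceFinite : V27rRRSpaceFiniteSpec K F := fun hP hfin hne =>
  haveI := hP
  haveI := hne
  ⟨fun D => v27r_rrSpace_finite hfin D, fun _ _ h => v27r_rrSpace_finrank_le hfin h⟩

theorem v27r_H1map_eq_factor {D D' : Divisor K F} (h : D ≤ D') :
    v27r_H1map h = v27r_factor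
      (sup_le_sup_right (repartitionsOf_mono h) (principalRepartitions K F)) := rfl

theorem v27r_H1map_surjective {D D' : Divisor K F} (h : D ≤ D') :
    Function.Surjective (v27r_H1map h) := by
  rw [v27r_H1map_eq_factor]
  exact v27r_factor_surjective _

/-- (R3), with the instances as instance arguments. -/
theorem v27r_ker_count [HasPrincipalDivisors K F]
    (hfin : ∀ v : Place K F, Module.Finite K v.ResidueField) [Nonempty (Place K F)]
    {D D' : Divisor K F} (h : D ≤ D') :
    Module.Finite K ↥(LinearMap.ker (v27r_H1map h)) ∧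
    (finrank K ↥(LinearMap.ker (v27r_H1map h)) : ℤ) + finrank K ↥(riemannRochSpace D')
      = finrank K ↥(riemannRochSpace D) + (Divisor.degree D' - Divisor.degree D) := by
  have h1 := v27r_relFin_of_le hfin h
  have hL : Module.Finite K ↥(repartitionsOf D' ⊓ principalRepartitions K F) :=
    (v27r_rrSpace_finite_iff D').mp (v27r_rrSpace_finite hfin D')
  have h2 := v27r_exact_count (P := principalRepartitions K F) (repartitionsOf_mono h) h1.1 hL
  rw [v27r_H1map_eq_factor]
  refine ⟨h2.1, ?_⟩
  rw [v27r_rrSpace_finrank, v27r_rrSpace_finrank, ← h1.2]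
  exact_mod_cast h2.2

/-- (R3). -/
theorem v27r_ker : V27rKerSpec K F := fun hP hfin hne _ _ h =>
  haveI := hP
  haveI := hne
  ⟨v27r_H1map_surjective h, v27r_ker_count hfin h⟩

/-- finiteness of `H1` transfers along `D ≤ D'`, with the Euler characteristic count. -/
theorem v27r_H1_finite_iff [HasPrincipalDivisors K F]
    (hfin : ∀ v : Place K F, Module.Finite K v.ResidueField) [Nonempty (Place K F)]
    {D D' : Divisor K F} (h : D ≤ D') :
    (Module.Finite K (H1 D) ↔ Module.Finite K (H1 D')) ∧
    (Module.Finite K (H1 D') →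
      (finrank K ↥(riemannRochSpace D') : ℤ) - finrank K (H1 D') - Divisor.degree D'
        = (finrank K ↥(riemannRochSpace D) : ℤ) - finrank K (H1 D) - Divisor.degree D) := by
  obtain ⟨hk1, hk2⟩ := v27r_ker_count hfin h
  obtain ⟨h1, h2⟩ := v27r_finite_iff_of_surjective (v27r_H1map h) (v27r_H1map_surjective h) hk1
  refine ⟨h1, fun hf => ?_⟩
  have h3 := h2 hf
  have h4 : (finrank K (H1 D) : ℤ) = finrank K (H1 D') + finrank K ↥(LinearMap.ker (v27r_H1map h)) := by
    exact_mod_cast h3
  linarith

/-- (R4), with the instances as instance arguments. -/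
theorem v27r_H1_finite [HasPrincipalDivisors K F]
    (hfin : ∀ v : Place K F, Module.Finite K v.ResidueField) [Nonempty (Place K F)]
    {D₀ : Divisor K F} (h₀ : Module.Finite K (H1 D₀)) (D : Divisor K F) :
    Module.Finite K (H1 D) := by
  have h1 : D ⊓ D₀ ≤ D₀ := inf_le_right
  have h2 : D ⊓ D₀ ≤ D := inf_le_left
  exact (v27r_H1_finite_iff hfin h2).1.mp ((v27r_H1_finite_iff hfin h1).1.mpr h₀)

theorem v27r_euler_const [HasPrincipalDivisors K F]
    (hfin : ∀ v : Place K F, Module.Finite K v.ResidueField) [Nonempty (Place K F)]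
    {D₀ : Divisor K F} (h₀ : Module.Finite K (H1 D₀)) (D E : Divisor K F) :
    (finrank K ↥(riemannRochSpace D) : ℤ) - finrank K (H1 D) - Divisor.degree D
      = (finrank K ↥(riemannRochSpace E) : ℤ) - finrank K (H1 E) - Divisor.degree E := by
  have h1 : D ⊓ E ≤ E := inf_le_right
  have h2 : D ⊓ E ≤ D := inf_le_left
  have e1 := (v27r_H1_finite_iff hfin h1).2 (v27r_H1_finite hfin h₀ E)
  have e2 := (v27r_H1_finite_iff hfin h2).2 (v27r_H1_finite hfin h₀ D)
  rw [e1, e2]

/-- (R4). -/
theorem v27r_euler : V27rEulerSpec K F := fun hP hfin hne _ h₀ =>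
  haveI := hP
  haveI := hne
  ⟨fun D => v27r_H1_finite hfin h₀ D, fun D E => v27r_euler_const hfin h₀ D E⟩

/-- (R4'). -/
theorem v27r_genus : V27rGenusSpec K F := fun hP hfin hne h₀ D => by
  haveI := hP
  haveI := hne
  have h := v27r_euler_const hfin h₀ D 0
  rw [map_zero, sub_zero] at h
  unfold genusFF
  linarith

/-- the literal `hconst` of `V/RR/Pack.lean` (helper9). -/
theorem v27r_hconst [HasPrincipalDivisors K F]
    (hfin : ∀ v : Place K F, Module.Finite K v.ResidueField) (hne : Nonempty (Place K F))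
    (hfinH : ∀ D : Divisor K F, Module.Finite K (H1 D)) (D : Divisor K F) :
    (finrank K ↥(riemannRochSpace D) : ℤ) - finrank K (H1 D) - Divisor.degree D
      = (finrank K ↥(riemannRochSpace (0 : Divisor K F)) : ℤ) - finrank K (H1 (0 : Divisor K F)) := by
  haveI := hne
  have h := v27r_euler_const hfin (hfinH 0) D 0
  rw [map_zero, sub_zero] at h
  exact h

end AlgebraicCurve

end
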