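import Mathlib
import Fermat.Prelude.Def_AlgebraicCurve_Repartitions
import Fermat.Agent.V.Rep.Spec
import Fermat.Agent.V.Rep.Lin
import Fermat.Agent.V.Rep.Local
import Fermat.Agent.V.Rep.Quot
import Fermat.Agent.V.Rep.RRSpace
import Fermat.Agent.V.Rep.Main

/-!
# Program V (S27), leaf A2.1+ : Riemann's theorem from one vanishing `H1`

Owner: helper28.  Prefix `v27r_`.

If `A = A(D₀) + F` for one divisor `D₀`, then all `H1 D` are finite dimensional and
`H1 D = 0` as soon as `deg D` is large.
-/

set_option autoImplicit false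

noncomputable section

open WithZero Module

namespace AlgebraicCurve

variable {K F : Type*} [Field K] [Field F] [Algebra K F]

/-- multiplication of a repartition by a function. -/
theorem v27r_ev_const_mul (v : Place K F) (f : F) (α : ↥(repartitions K F)) :
    v27r_ev v (v27r_const K F f * α) = f * v27r_ev v α := rfl

/-- `f · A(D) ⊆ A(D - (f))`. -/
theorem v27r_const_mul_mem {D Df : Divisor K F} {f : F} (hf : f ≠ 0)
    (hDf : ∀ v : Place K F, Df v = v.ord f) {α : ↥(repartitions K F)}
    (hα : α ∈ repartitionsOf D) : v27r_const K F f * α ∈ repartitionsOf (D - Df) := by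
  rw [v27r_mem_repartitionsOf] at hα ⊢
  intro w
  rw [v27r_ev_const_mul, map_mul, w.adicValuation_eq_exp_neg_ord hf, Finsupp.sub_apply, hDf w,
    sub_eq_add_neg, add_comm, exp_add]
  exact mul_le_mul_right (hα w) _

theorem v27r_const_mul_const (f g : F) :
    v27r_const K F f * v27r_const K F g = v27r_const K F (f * g) :=
  (map_mul (algebraMap F ↥(repartitions K F)) f g).symm

theorem v27r_const_one : v27r_const K F 1 = 1 :=
  map_one (algebraMap F ↥(repartitions K F))

theorem v27r_const_mem_principal (f : F) : v27r_const K F f ∈ principalRepartitions K F := by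
  rw [← v27r_range_const]
  exact ⟨f, rfl⟩

/-- `A = A(D) + F` is invariant under linear equivalence. -/
theorem v27r_sup_eq_top_sub {D Df : Divisor K F} {f : F} (hf : f ≠ 0)
    (hDf : ∀ v : Place K F, Df v = v.ord f)
    (h : repartitionsOf D ⊔ principalRepartitions K F = ⊤) :
    repartitionsOf (D - Df) ⊔ principalRepartitions K F = ⊤ := by
  rw [eq_top_iff]
  intro α _
  have h1 : v27r_const K F f⁻¹ * α ∈ repartitionsOf D ⊔ principalRepartitions K F := by
    rw [h]
    exact Submodule.mem_top
  obtain ⟨β, hβ, p, hp, hsum⟩ := Submodule.mem_sup.mp h1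
  rw [← v27r_range_const] at hp
  obtain ⟨g, rfl⟩ := hp
  have h2 : α = v27r_const K F f * β + v27r_const K F (f * g) := by
    rw [← v27r_const_mul_const, ← mul_add, hsum, ← mul_assoc, v27r_const_mul_const,
      mul_inv_cancel₀ hf, v27r_const_one, one_mul]
  rw [h2]
  exact Submodule.add_mem_sup (v27r_const_mul_mem hf hDf hβ) (v27r_const_mem_principal _)

theorem v27r_sup_eq_top_mono {D D' : Divisor K F} (hle : D ≤ D')
    (h : repartitionsOf D ⊔ principalRepartitions K F = ⊤) :
    repartitionsOf D' ⊔ principalRepartitions K F = ⊤ := by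
  rw [eq_top_iff, ← h]
  exact sup_le_sup_right (repartitionsOf_mono hle) _

theorem v27r_H1_subsingleton_iff (D : Divisor K F) :
    Subsingleton (H1 D) ↔ repartitionsOf D ⊔ principalRepartitions K F = ⊤ :=
  Submodule.Quotient.subsingleton_iff

/-- Riemann's theorem from one vanishing `H1`. -/
theorem v27r_riemann_of_exists [HasPrincipalDivisors K F]
    (hfin : ∀ v : Place K F, Module.Finite K v.ResidueField) (hne : Nonempty (Place K F))
    {D₀ : Divisor K F} (h₀ : repartitionsOf D₀ ⊔ principalRepartitions K F = ⊤) :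
    (∀ D : Divisor K F, Module.Finite K (H1 D)) ∧
    ∃ c : ℤ, ∀ D : Divisor K F, c ≤ Divisor.degree D → Module.finrank K (H1 D) = 0 := by
  have := hne
  have hsub : Subsingleton (H1 D₀) := (v27r_H1_subsingleton_iff D₀).mpr h₀
  have hfin0 : Module.Finite K (H1 D₀) := by
    have : Finite (H1 D₀) := Finite.of_subsingleton
    exact Module.Finite.of_finite
  have hi0 : (finrank K (H1 D₀) : ℤ) = 0 := by
    rw [finrank_zero_of_subsingleton]
    rfl
  refine ⟨fun D => v27r_H1_finite hfin hfin0 D, 2 * Divisor.degree D₀ + 1, fun D hD => ?_⟩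
  -- a non-zero function in `L(D - D₀)`
  have he := v27r_euler_const hfin hfin0 (D - D₀) D₀
  rw [hi0, map_sub] at he
  have hl : 0 < finrank K ↥(riemannRochSpace (D - D₀)) := by
    have h1 : (0 : ℤ) ≤ finrank K (H1 (D - D₀)) := Int.natCast_nonneg _
    have h2 : (0 : ℤ) ≤ finrank K ↥(riemannRochSpace D₀) := Int.natCast_nonneg _
    have h3 : (0 : ℤ) < finrank K ↥(riemannRochSpace (D - D₀)) := by linarith
    exact_mod_cast h3
  have hfinL : Module.Finite K ↥(riemannRochSpace (D - D₀)) := v27r_rrSpace_finite hfin _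
  have hnt : Nontrivial ↥(riemannRochSpace (D - D₀)) := Module.finrank_pos_iff.mp hl
  obtain ⟨⟨f, hfL⟩, hf0⟩ := exists_ne (0 : ↥(riemannRochSpace (D - D₀)))
  have hf : f ≠ 0 := fun h => hf0 (Subtype.ext h)
  obtain ⟨Df, hDf, _⟩ := HasPrincipalDivisors.exists_divisor (K := K) f hf
  have hle : D₀ ≤ D + Df := by
    rw [Finsupp.le_def]
    intro v
    rw [Finsupp.add_apply, hDf v]
    rcases (mem_riemannRochSpace_iff.mp hfL) v with h | h
    · exact absurd h hf
    · rw [Finsupp.sub_apply] at h
      linarith
  have h1 := v27r_sup_eq_top_sub hf hDf (v27r_sup_eq_top_mono hle h₀)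
  rw [add_sub_cancel_right] at h1
  have : Subsingleton (H1 D) := (v27r_H1_subsingleton_iff D).mpr h1
  exact finrank_zero_of_subsingleton

end AlgebraicCurve

end
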